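/-
Programme MAZ, brick F-G0 (hedge, helper18): **descent of a place reduction from level `M` to a
level `N ∣ M`** (`A` a valuation subring of `ℚ̄` over `ℓ ∤ M`).

Instance of helper56's abstract `G0Red56.Descent.exists_descent` for
`F = Fbar N ⊆ F' = Fbar M` (`LevelPullback12.levelIncl`) and
`G = FullC κ N ⊆ G' = FullC κ M` (`inclC`), `I` = the integral pairs at level `N`:

* `hsumF` : `levelIncl_fundamentalIdentityAlong` + all degrees one;
* `hfibG`, `hsumG` : `sum_ramificationIndex_inclC` (`LevelC.lean`) + `ψ(N)·d = ψ(M)` on both sides;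
* `hgen` : `GaussUnit25.principalGeneratedByIntegral`;
* `hinf` : the `j`-line argument: for `c̄ ∈ κ` the function `j̄ - c̄` has a zero `Q'` at level `M`,
  `Q' = r' w` because `r'_* div(j - c) = div(j̄ - c̄)`, and `Q'|_G` is a zero of `j̄ - c̄` at level `N`;
  a finite set of places of `G` only sees finitely many `c̄`;
* `hdiv` (divisibility of `Pic⁰ (Fbar N)`) is kept as a HYPOTHESIS here (provider:
  `MW.Div73.jzero_divisible`, heavy import) and discharged in `Final.lean`.
-/
import Mathlib
import Fermat.Agent.MAZ.G0Hedge18.LevelC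
import Fermat.Agent.MAZ.G0Red56.Descent
import Fermat.Agent.MAZ.InfPlace89.Main
import Fermat.Agent.MAZ.RedCusp18.Main
import Fermat.Agent.ES.HECKE.LevelPullback12
import Fermat.Agent.RED.TOP.FbarFacts20
import Fermat.Agent.ES.RED.GaussUnit25
import Fermat.Agent.ES.KRON.KronInst10

set_option autoImplicit false
set_option linter.style.haveILetI false
set_option linter.unusedSectionVars false
set_option synthInstance.maxHeartbeats 400000
set_option maxHeartbeats 1000000

open AlgebraicCurve ModularCurve IntermediateField HahnSeries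

noncomputable section

namespace Fermat.Agent.MAZ.G0Hedge18

open Fermat.Agent.X0 Fermat.Agent.T1B.Hecke87.CharPX0 Fermat.Agent.T1B.Hecke87.CharPX0Final
  Fermat.Agent.T1B.Hecke87.HPDCharP
open Fermat.Agent.ES.HECKE.LevelPullback12 Fermat.Agent.RED.TOP Fermat.Agent.ES.RED
  Fermat.Agent.ES.KRON Fermat.Agent.RED.LVL Fermat.Agent.MAZ.G0Red56

local notation "Qb" => AlgebraicClosure ℚ

section Setting

variable (A : ValuationSubring Qb)

local notation "κ" => IsLocalRing.ResidueField A
local notation "π" => IsLocalRing.residue A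

/-- the integral pairs `(y, ȳ)` at level `N`. -/
def pairs (N : ℕ) [NeZero N] :
    Set (↥(modularFunctionFieldBar N) × ↥(modularFunctionFieldFullC κ N)) :=
  {p | ∃ (y : LaurentSeries A) (hy : coeffMap A.subtype y ∈ modularFunctionFieldBar N)
      (hyk : coeffMap π y ∈ modularFunctionFieldFullC κ N), coeffMap π y ≠ 0 ∧
        p = (⟨coeffMap A.subtype y, hy⟩, ⟨coeffMap π y, hyk⟩)}

variable {A}

theorem closure_pairs {N : ℕ} [NeZero N] (hgen : PrincipalGeneratedByIntegral A π N) :
    Divisor.principal (K := Qb) (F := modularFunctionFieldBar N) ≤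
      AddSubgroup.closure {D | ∃ p ∈ pairs A N,
        ∀ v : Place Qb (modularFunctionFieldBar N), D v = v.ord p.1} := by
  refine hgen.trans (AddSubgroup.closure_mono ?_)
  rintro D ⟨y, hy, hyk, hne, hD⟩
  exact ⟨(⟨coeffMap A.subtype y, hy⟩, ⟨coeffMap π y, hyk⟩), ⟨y, hy, hyk, hne, rfl⟩, hD⟩

theorem coeffMap_subtype_eq_zero {y : LaurentSeries A} (h : coeffMap A.subtype y = 0) : y = 0 := by
  ext n
  have := congrArg (fun x : LaurentSeries Qb => x.coeff n) h
  simpa [coeffMap_coeff] using this

end Setting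

section Main

variable {ℓ : ℕ} [Fact ℓ.Prime] {A : ValuationSubring Qb} (hA : A.LiesOverPrime ℓ)
  {N M : ℕ} [NeZero N] [NeZero M] (h : N ∣ M) (hℓM : ¬ ℓ ∣ M)

local notation "κ" => IsLocalRing.ResidueField A
local notation "π" => IsLocalRing.residue A

include hA hℓM in
/-- **Descent of a place reduction** from level `M` to level `N ∣ M`. -/
theorem exists_descent_level
    (hdiv : ∀ n : ℕ, n ≠ 0 → ∀ x : Pic0 Qb ↥(modularFunctionFieldBar N),
      ∃ z : Pic0 Qb ↥(modularFunctionFieldBar N), n • z = x)
    {r' : Place Qb ↥(modularFunctionFieldBar M) → Place κ ↥(modularFunctionFieldFullC κ M)}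
    (hr' : IsPlaceReductionModL A M r') :
    ∃ r : Place Qb ↥(modularFunctionFieldBar N) → Place κ ↥(modularFunctionFieldFullC κ N),
      IsPlaceReductionModL A N r ∧
      ∀ (hint : (inclC κ h).toRingHom.IsIntegral) (w : Place Qb ↥(modularFunctionFieldBar M)),
        (r' w).restrictAlong (inclC κ h) hint =
          r (w.restrictAlong (levelIncl h) (levelIncl_isIntegral h)) := by
  classical
  haveI : IsAlgClosed κ := KronInst10.isAlgClosed_residueField A
  haveI : CharP κ ℓ := KronInst10.charP_residueField A (Fact.out : ℓ.Prime) hA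
  have hℓN : ¬ ℓ ∣ N := fun h' => hℓM (h'.trans h)
  haveI := FbarFacts20.hasPrincipalDivisors_bar M
  haveI : HasPrincipalDivisors κ ↥(modularFunctionFieldFullC κ M) :=
    hasPrincipalDivisors_fullC κ ℓ M hℓM
  -- the algebra structures
  letI algF := algebraAlong (levelIncl h)
  haveI := isScalarTower_along (levelIncl h)
  haveI := isIntegral_along (levelIncl h) (levelIncl_isIntegral h)
  letI algG := algebraAlong (inclC κ h)
  haveI := isScalarTower_along (inclC κ h)
  haveI := isIntegral_along (inclC κ h) (isIntegral_inclC κ ℓ h hℓM)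
  -- the degree
  set d := finrankAlong Qb (levelIncl h) with hd_def
  have hdN : dedekindPsi N * d = dedekindPsi M := by
    rw [hd_def, finrankAlong_levelIncl]
    exact LevelDegree17.psi_mul_relfinrank h
  have hdC : dedekindPsi N * finrankAlong κ (inclC κ h) = dedekindPsi M :=
    psi_mul_finrankAlong_inclC κ ℓ h hℓM
  have hψN : 0 < dedekindPsi N := GNPsi.gnp_dedekindPsi_pos (NeZero.ne N)
  have hψM : 0 < dedekindPsi M := GNPsi.gnp_dedekindPsi_pos (NeZero.ne M)
  have hdeq : finrankAlong κ (inclC κ h) = d :=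
    Nat.eq_of_mul_eq_mul_left hψN (hdC.trans hdN.symm)
  have hd : 0 < d := by
    rcases Nat.eq_zero_or_pos d with h0 | h0
    · rw [h0, mul_zero] at hdN
      omega
    · exact h0
  have hdegN := FbarFacts20.deg_eq_one_bar N
  have hdegM := FbarFacts20.deg_eq_one_bar M
  -- the fundamental identity, generic side
  have hsumF : ∀ v : Place Qb ↥(modularFunctionFieldBar N),
      ∑ w ∈ v.fiber ↥(modularFunctionFieldBar M),
        (w.ramificationIndex ↥(modularFunctionFieldBar N) : ℤ) = d := by
    intro v
    have hFI : FundamentalIdentity Qb ↥(modularFunctionFieldBar N)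
        ↥(modularFunctionFieldBar M) := levelIncl_fundamentalIdentityAlong h
    have h1 := hFI.sum_ramificationIndex_mul_deg v
    rw [hdegN v, Nat.cast_one, mul_one] at h1
    refine Eq.trans (Finset.sum_congr rfl fun w _ => ?_) h1
    rw [hdegM w, Nat.cast_one, mul_one]
  -- the fundamental identity, special side
  have hG := sum_ramificationIndex_inclC κ ℓ h hℓM
  have hfibG : ∀ Q : Place κ ↥(modularFunctionFieldFullC κ N),
      {Q' : Place κ ↥(modularFunctionFieldFullC κ M) |
        Q'.restrict ↥(modularFunctionFieldFullC κ N) = Q}.Finite := fun Q => (hG Q).choose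
  have hsumG : ∀ Q : Place κ ↥(modularFunctionFieldFullC κ N),
      ∑ Q' ∈ (hfibG Q).toFinset,
        (Q'.ramificationIndex ↥(modularFunctionFieldFullC κ N) : ℤ) = d := fun Q => by
    rw [← hdeq]
    exact (hG Q).choose_spec
  -- integral pairs go up
  have hI : ∀ p ∈ pairs A N, ∀ D' : Divisor Qb ↥(modularFunctionFieldBar M),
      (∀ w, D' w = w.ord (algebraMap ↥(modularFunctionFieldBar N)
        ↥(modularFunctionFieldBar M) p.1)) →
      ∀ Q', Finsupp.mapDomain r' D' Q' =
        Q'.ord (algebraMap ↥(modularFunctionFieldFullC κ N)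
          ↥(modularFunctionFieldFullC κ M) p.2) := by
    rintro p ⟨y, hy, hyk, hne, rfl⟩ D' hD' Q'
    have hy' : coeffMap A.subtype y ∈ modularFunctionFieldBar M :=
      Fermat.Agent.RED.BASE.Interface12.fbar_mono h hy
    have hyk' : coeffMap π y ∈ modularFunctionFieldFullC κ M := full_degeneracyC_le κ h hyk
    have h1 := hr'.2 y hy' hyk' hne D' (fun w => by rw [hD' w]; rfl) Q'
    rw [h1]
    rfl
  have hgen := closure_pairs (GaussUnit25.principalGeneratedByIntegral A ℓ hA N hℓN)
  -- the image of `r'` restricted to level `N` is infinite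
  have hinf : ∀ S : Set (Place κ ↥(modularFunctionFieldFullC κ N)), S.Finite →
      ∃ w : Place Qb ↥(modularFunctionFieldBar M),
        (r' w).restrict ↥(modularFunctionFieldFullC κ N) ∉ S := by
    intro S hS
    let T : Set κ := {c | ∃ Q ∈ S, 0 < Q.ord (jC κ N - algebraMap κ _ c)}
    have hT : T.Finite := by
      have hsub : T ⊆ ⋃ Q ∈ S, {c | 0 < Q.ord (jC κ N - algebraMap κ _ c)} := by
        rintro c ⟨Q, hQ, hc⟩
        exact Set.mem_biUnion hQ hc
      refine (Set.Finite.biUnion hS fun Q _ => ?_).subset hsub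
      exact Set.Subsingleton.finite fun a ha b hb =>
        Fermat.Agent.MAZ.InfPlace89.eq_of_ord_sub_pos Q (jC κ N) ha hb
    obtain ⟨cb, hcb⟩ := hT.exists_notMem
    obtain ⟨c, rfl⟩ := IsLocalRing.residue_surjective cb
    set y : LaurentSeries A := jqModC A - HahnSeries.single 0 c with hydef
    have e1 : coeffMap A.subtype y =
        jqModC Qb - algebraMap Qb (LaurentSeries Qb) (c : Qb) := by
      rw [hydef, map_sub, coeffMap_jqModC, coeffMap_single, algebraMap_laurentSeries_eq_single]
      rfl
    have e2 : coeffMap π y = jqModC κ - algebraMap κ (LaurentSeries κ) (π c) := by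
      rw [hydef, map_sub, coeffMap_jqModC, coeffMap_single, algebraMap_laurentSeries_eq_single]
    have hy : coeffMap A.subtype y ∈ modularFunctionFieldBar M := by
      rw [e1]
      exact sub_mem (Fermat.Agent.RED.PUR.DegBaseChange25.jqModC_mem_laurentBaseChange Qb M)
        (IntermediateField.algebraMap_mem _ _)
    have hyk : coeffMap π y ∈ modularFunctionFieldFullC κ M := by
      rw [e2]
      exact sub_mem (jqModC_mem_full κ M) (IntermediateField.algebraMap_mem _ _)
    -- a zero of `j̄ - c̄` at level `M`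
    obtain ⟨Q', hQ'⟩ := Fermat.Agent.MAZ.InfPlace89.exists_zero (jC κ M)
      (Fermat.Agent.MAZ.RedCusp18.qPlace κ M)
      (by rw [deg_eq_one_fullC κ ℓ M hℓM]; exact Nat.one_pos)
      (by
        have := Fermat.Agent.MAZ.RedCusp18.qPlace_ord_jk κ M
        rw [show jC κ M = Fermat.Agent.MAZ.RedFibre34.jk κ M from rfl, this]
        norm_num) (π c)
    have hyM : (⟨coeffMap π y, hyk⟩ : ↥(modularFunctionFieldFullC κ M)) =
        jC κ M - algebraMap κ _ (π c) := Subtype.ext e2
    have hne : coeffMap π y ≠ 0 := by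
      intro h0
      have h00 : (⟨coeffMap π y, hyk⟩ : ↥(modularFunctionFieldFullC κ M)) = 0 := Subtype.ext h0
      rw [hyM] at h00
      rw [h00, Place.ord_zero] at hQ'
      exact lt_irrefl _ hQ'
    have hyF : (⟨coeffMap A.subtype y, hy⟩ : ↥(modularFunctionFieldBar M)) ≠ 0 := by
      intro h0
      apply hne
      rw [coeffMap_subtype_eq_zero (congrArg Subtype.val h0), map_zero]
    obtain ⟨D', hD', -⟩ := HasPrincipalDivisors.exists_divisor (K := Qb) _ hyF
    have hmap := hr'.2 y hy hyk hne D' hD' Q'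
    rw [hyM] at hmap
    have hpos : 0 < Finsupp.mapDomain r' D' Q' := by rw [hmap]; exact hQ'
    have hmem : Q' ∈ (Finsupp.mapDomain r' D').support := Finsupp.mem_support_iff.mpr hpos.ne'
    obtain ⟨w, -, hw⟩ := Finset.mem_image.mp (Finsupp.mapDomain_support hmem)
    refine ⟨w, fun hwS => hcb ⟨_, hwS, ?_⟩⟩
    rw [hw]
    have h1 := Q'.ord_restrict (F := ↥(modularFunctionFieldFullC κ N))
      (jC κ N - algebraMap κ _ (π c))
    have halg : algebraMap ↥(modularFunctionFieldFullC κ N) ↥(modularFunctionFieldFullC κ M)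
        (jC κ N - algebraMap κ _ (π c)) = jC κ M - algebraMap κ _ (π c) := by
      rw [map_sub, ← IsScalarTower.algebraMap_apply]
      rfl
    rw [halg] at h1
    rw [h1] at hQ'
    have hepos : (0 : ℤ) < (Q'.ramificationIndex ↥(modularFunctionFieldFullC κ N) : ℤ) := by
      exact_mod_cast Q'.ramificationIndex_pos (F := ↥(modularFunctionFieldFullC κ N))
    exact (mul_pos_iff_of_pos_left hepos).mp hQ'
  obtain ⟨r, hrc, hrp⟩ := Descent.exists_descent (r' := r') hd hsumF hfibG hsumG hdegN
    (pairs A N) hI hgen (fun x => hdiv d hd.ne' x) hinf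
  refine ⟨r, ⟨fun P => ?_, ?_⟩, ?_⟩
  · rw [hdegN P]
    exact deg_eq_one_fullC κ ℓ N hℓN _
  · intro y hy hyk hne D hD Q
    exact hrp (⟨_, hy⟩, ⟨_, hyk⟩) ⟨y, hy, hyk, hne, rfl⟩ D hD Q
  · intro hint w
    exact hrc w

end Main

end Fermat.Agent.MAZ.G0Hedge18
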