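/-
Programme MAZ, brick F-G0 (hedge, helper18): **`ReductionInputsModL A N` for EVERY level `N` prime
to `ℓ`** (`A` a valuation subring of `ℚ̄` over `ℓ`).

* a place reduction at the auxiliary level `M = auxLevel ℓ N` (`= lcm N 4`, resp. `lcm N 9` for
  `ℓ = 2`) comes from the two-chart model of S37: helper13's
  `G0Aux13.exists_isPlaceReductionModL_auxLevel` (`ES/TOP/ModelAtFinal8.modelAt` + `RedInst15`);
* `exists_isPlaceReductionModL` : it descends to level `N` (`DescentInst.exists_descent_level`,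
  `hdiv := MW.Div73.jzero_divisible`);
* `reductionInputsModL_all`, and `hG0` = the hypothesis `hG0` of `Endgame88.s15_of_inputs`, verbatim.
-/
import Mathlib
import Fermat.Agent.MAZ.G0Hedge18.DescentInst
import Fermat.Agent.MW.Div73
import Fermat.Agent.MAZ.G0Aux13.Main
import Fermat.Agent.MAZ.G0_71.Unique

set_option autoImplicit false
set_option linter.style.haveILetI false
set_option linter.unusedSectionVars false
set_option synthInstance.maxHeartbeats 400000

open AlgebraicCurve ModularCurve IntermediateField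

noncomputable section

namespace Fermat.Agent.MAZ.G0Hedge18

open Fermat.Agent.RED.Interface4 Fermat.Agent.RED.BASE Fermat.Agent.RED.BASE.Hauptmodul12
  Fermat.Agent.RED.LVL Fermat.Agent.ES.TOP Fermat.Agent.ES.RED

local notation "Qb" => AlgebraicClosure ℚ

/-- **a place reduction exists at every level prime to `ℓ`.** -/
theorem exists_isPlaceReductionModL {ℓ : ℕ} (hℓ : ℓ.Prime) (A : ValuationSubring Qb)
    (hA : A.LiesOverPrime ℓ) (N : ℕ) [NeZero N] (hℓN : ¬ ℓ ∣ N) :
    ∃ r : Place Qb ↥(modularFunctionFieldBar N) →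
        Place (IsLocalRing.ResidueField A)
          ↥(modularFunctionFieldFullC (IsLocalRing.ResidueField A) N),
      IsPlaceReductionModL A N r := by
  haveI : Fact ℓ.Prime := ⟨hℓ⟩
  haveI := LevelDegree17.neZero_auxLevel ℓ N
  obtain ⟨r', hr'⟩ :=
    Fermat.Agent.MAZ.G0Aux13.exists_isPlaceReductionModL_auxLevel ℓ N hℓ hℓN A hA
  obtain ⟨r, hr, -⟩ := exists_descent_level hA (dvd_auxLevel ℓ N) (not_dvd_auxLevel hℓ hℓN)
    (fun n hn x => Fermat.Agent.MW.Div73.jzero_divisible N n hn x) hr'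
  exact ⟨r, hr⟩

/-- **F-G0**: `ReductionInputsModL A N` for every level `N` prime to `ℓ`. -/
theorem reductionInputsModL_all {ℓ : ℕ} (hℓ : ℓ.Prime) (A : ValuationSubring Qb)
    (hA : A.LiesOverPrime ℓ) (N : ℕ) [NeZero N] (hℓN : ¬ ℓ ∣ N) : ReductionInputsModL A N := by
  haveI : Fact ℓ.Prime := ⟨hℓ⟩
  obtain ⟨r, hr⟩ := exists_isPlaceReductionModL hℓ A hA N hℓN
  exact ⟨r, hr, GaussUnit25.principalGeneratedByIntegral A ℓ hA N hℓN⟩

/-- **F-G0**, in the exact shape of the hypothesis `hG0` of `HeckeRed71.Final.hE4_of_g0`. -/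
theorem hG0_all : ∀ {ℓ' : ℕ}, ℓ'.Prime → ∀ (M : ℕ) [NeZero M], ¬ ℓ' ∣ M →
    ∀ A' : ValuationSubring Qb, A'.LiesOverPrime ℓ' → ReductionInputsModL A' M :=
  fun hℓ' M _ hM A' hA' => reductionInputsModL_all hℓ' A' hA' M hM

/-- **F-G0 at prime level**, the hypothesis `hG0` of `Endgame88.s15_of_inputs` verbatim. -/
theorem reductionInputsModL_prime {p : ℕ} [NeZero p] (hp : p.Prime) :
    ∀ {ℓ' : ℕ}, ℓ'.Prime → ℓ' ≠ p → ∀ A' : ValuationSubring Qb, A'.LiesOverPrime ℓ' →
      ReductionInputsModL A' p := by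
  intro ℓ' hℓ' hℓ'p A' hA'
  exact reductionInputsModL_all hℓ' A' hA' p
    (fun hdvd => hℓ'p ((Nat.prime_dvd_prime_iff_eq hℓ' hp).mp hdvd))

/-! ### uniqueness and compatibility with restriction -/

/-- **the place reduction at level `N` (prime to `ℓ`) is unique.** -/
theorem isPlaceReductionModL_unique {ℓ : ℕ} (hℓ : ℓ.Prime) (A : ValuationSubring Qb)
    (hA : A.LiesOverPrime ℓ) (N : ℕ) [NeZero N] (hℓN : ¬ ℓ ∣ N)
    {r₁ r₂ : Place Qb ↥(modularFunctionFieldBar N) →
        Place (IsLocalRing.ResidueField A)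
          ↥(modularFunctionFieldFullC (IsLocalRing.ResidueField A) N)}
    (h₁ : IsPlaceReductionModL A N r₁) (h₂ : IsPlaceReductionModL A N r₂) : r₁ = r₂ := by
  haveI : Fact ℓ.Prime := ⟨hℓ⟩
  haveI := Fermat.Agent.RED.TOP.FbarFacts20.hasPrincipalDivisors_bar N
  have hy : coeffMap A.subtype (jqModC A) ∈ modularFunctionFieldBar N := by
    rw [coeffMap_jqModC]
    exact Fermat.Agent.RED.PUR.DegBaseChange25.jqModC_mem_laurentBaseChange Qb N
  have hyk : coeffMap (IsLocalRing.residue A) (jqModC A) ∈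
      modularFunctionFieldFullC (IsLocalRing.ResidueField A) N := by
    rw [coeffMap_jqModC]
    exact jqModC_mem_full _ N
  have hne : coeffMap (IsLocalRing.residue A) (jqModC A) ≠ 0 := by
    rw [coeffMap_jqModC]
    exact jqModC_ne_zero_of_nontrivial _
  have hjk : (⟨coeffMap (IsLocalRing.residue A) (jqModC A), hyk⟩ :
      ↥(modularFunctionFieldFullC (IsLocalRing.ResidueField A) N)) =
        Fermat.Agent.MAZ.RedFibre34.jk (IsLocalRing.ResidueField A) N :=
    Subtype.ext (coeffMap_jqModC _)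
  refine Fermat.Agent.MAZ.G0.Unique.isPlaceReductionAlong_unique h₁ h₂
    (GaussUnit25.principalGeneratedByIntegral A ℓ hA N hℓN)
    (fun x n hn => Fermat.Agent.MW.Div73.jzero_divisible N n hn.ne' x)
    (Fermat.Agent.RED.TOP.FbarFacts20.deg_eq_one_bar N)
    ⟨jqModC A, hy, hyk, Fermat.Agent.MAZ.RedCusp18.qPlace (IsLocalRing.ResidueField A) N, hne, ?_⟩
  rw [hjk, Fermat.Agent.MAZ.RedCusp18.qPlace_ord_jk]
  norm_num

/-- **compatibility of ANY two place reductions at levels `N ∣ M` with restriction along the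
inclusion.** -/
theorem restrict_placeReduction {ℓ : ℕ} (hℓ : ℓ.Prime) (A : ValuationSubring Qb)
    (hA : A.LiesOverPrime ℓ) {N M : ℕ} [NeZero N] [NeZero M] (h : N ∣ M) (hℓM : ¬ ℓ ∣ M)
    {r' : Place Qb ↥(modularFunctionFieldBar M) →
        Place (IsLocalRing.ResidueField A)
          ↥(modularFunctionFieldFullC (IsLocalRing.ResidueField A) M)}
    (hr' : IsPlaceReductionModL A M r')
    {r : Place Qb ↥(modularFunctionFieldBar N) →
        Place (IsLocalRing.ResidueField A)
          ↥(modularFunctionFieldFullC (IsLocalRing.ResidueField A) N)}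
    (hr : IsPlaceReductionModL A N r)
    (hint : (inclC (IsLocalRing.ResidueField A) h).toRingHom.IsIntegral)
    (w : Place Qb ↥(modularFunctionFieldBar M)) :
    (r' w).restrictAlong (inclC (IsLocalRing.ResidueField A) h) hint =
      r (w.restrictAlong (Fermat.Agent.ES.HECKE.LevelPullback12.levelIncl h)
        (Fermat.Agent.ES.HECKE.LevelPullback12.levelIncl_isIntegral h)) := by
  haveI : Fact ℓ.Prime := ⟨hℓ⟩
  have hℓN : ¬ ℓ ∣ N := fun h' => hℓM (h'.trans h)
  obtain ⟨r₀, hr₀, hc⟩ := exists_descent_level hA h hℓM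
    (fun n hn x => Fermat.Agent.MW.Div73.jzero_divisible N n hn x) hr'
  rw [hc hint w, isPlaceReductionModL_unique hℓ A hA N hℓN hr₀ hr]

end Fermat.Agent.MAZ.G0Hedge18
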