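/-
Programme MAZ, brick F-G0 (hedge, helper18): **the inclusion `FullC k N ⊆ FullC k M` (`N ∣ M`) in
characteristic `p ∤ M`** (`k` algebraically closed): separable, finite, of degree `ψ(M)/ψ(N)`, and
the local sum formula `∑_{Q' ∣ Q} e(Q') = [FullC k M : FullC k N]` in the exact shape of
`G0Red56.Descent.exists_descent` (`hfibG`, `hsumG`).  Generalises helper87's `alphaC` facts
(`T1B/Hecke87/CharPX0`, prime index) to an arbitrary divisibility `N ∣ M`.
-/
import Mathlib
import Fermat.Agent.T1B.Hecke87.CharPX0Final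
import Fermat.Agent.MAZ.G0Red56.FundSep

set_option autoImplicit false
set_option linter.style.haveILetI false
set_option linter.unusedSectionVars false

open AlgebraicCurve ModularCurve IntermediateField HahnSeries

noncomputable section

namespace Fermat.Agent.MAZ.G0Hedge18

open Fermat.Agent.X0 Fermat.Agent.T1B.Hecke87.CharPX0 Fermat.Agent.T1B.Hecke87.SepAlong
  Fermat.Agent.T1B.Hecke87.CharPX0Final

/-! ### the map -/

section Maps

variable (k : Type*) [Field k] {N M : ℕ} [NeZero N] [NeZero M] (h : N ∣ M)

/-- the inclusion `k(j(q^d) : d ∣ N) ⊆ k(j(q^d) : d ∣ M)` for `N ∣ M`. -/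
def inclC : ↥(modularFunctionFieldFullC k N) →ₐ[k] ↥(modularFunctionFieldFullC k M) :=
  IntermediateField.inclusion (full_degeneracyC_le k h)

@[simp] theorem coe_inclC (x : ↥(modularFunctionFieldFullC k N)) :
    ((inclC k h x : ↥(modularFunctionFieldFullC k M)) : LaurentSeries k) = x :=
  IntermediateField.coe_inclusion _ x

theorem inclC_jC : inclC k h (jC k N) = jC k M := Subtype.ext rfl

end Maps

/-! ### separability, finiteness, degree -/

section CharP

variable (k : Type) [Field k] [IsAlgClosed k] (p : ℕ) [Fact p.Prime] [CharP k p]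
  {N M : ℕ} [NeZero N] [NeZero M] (h : N ∣ M)

theorem separableAlong_inclC (hp : ¬ p ∣ M) : SeparableAlong k (inclC k h) := by
  refine separableAlong_of_ambient (inclC k h) k⟮jqModC k⟯ ?_ ?_
  · intro s hs
    exact ⟨⟨s, adjoin_j_le k N hs⟩, rfl⟩
  · intro y
    exact isSeparable_j k p M hp y.2

theorem finiteAlong_inclC (hp : ¬ p ∣ M) : FiniteAlong k (inclC k h) :=
  finiteAlong_of_separableAlong_of_fg _ (separableAlong_inclC k p h hp) (fg_fullC k M)

theorem isIntegral_inclC (hp : ¬ p ∣ M) : (inclC k h).toRingHom.IsIntegral :=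
  Fermat.Agent.ES.HECKE.FundIdentity19.isIntegral_of_finiteAlong _ (finiteAlong_inclC k p h hp)

/-- `ψ(N) · [FullC k M : FullC k N] = ψ(M)`. -/
theorem psi_mul_finrankAlong_inclC (hp : ¬ p ∣ M) :
    dedekindPsi N * finrankAlong k (inclC k h) = dedekindPsi M := by
  have hpN : ¬ p ∣ N := fun h' => hp (h'.trans h)
  have h1 := Fermat.Agent.RED.PUR.DegBaseChange25.relfinrank_fullC_eq_psi_of_charP p k N hpN
  have h2 := Fermat.Agent.RED.PUR.DegBaseChange25.relfinrank_fullC_eq_psi_of_charP p k M hp
  have h3 := relfinrank_mul_relfinrank (adjoin_j_le k N) (full_degeneracyC_le k h)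
  rw [h1, h2] at h3
  rw [← h3, relfinrank_eq_finrank_of_le (full_degeneracyC_le k h)]
  rfl

/-- **the local sum formula along `FullC k N ⊆ FullC k M`**, in the shape of the hypotheses
`hfibG`, `hsumG` of `G0Red56.Descent.exists_descent`. -/
theorem sum_ramificationIndex_inclC (hp : ¬ p ∣ M)
    (Q : Place k ↥(modularFunctionFieldFullC k N)) :
    letI := algebraAlong (inclC k h)
    haveI := isScalarTower_along (inclC k h)
    haveI := isIntegral_along (inclC k h) (isIntegral_inclC k p h hp)
    ∃ hfin : {Q' : Place k ↥(modularFunctionFieldFullC k M) |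
        Q'.restrict ↥(modularFunctionFieldFullC k N) = Q}.Finite,
      ∑ Q' ∈ hfin.toFinset, (Q'.ramificationIndex ↥(modularFunctionFieldFullC k N) : ℤ) =
        (finrankAlong k (inclC k h) : ℤ) := by
  letI := algebraAlong (inclC k h)
  haveI := isScalarTower_along (inclC k h)
  haveI := isIntegral_along (inclC k h) (isIntegral_inclC k p h hp)
  haveI : FiniteDimensional ↥(modularFunctionFieldFullC k N) ↥(modularFunctionFieldFullC k M) :=
    finiteAlong_inclC k p h hp
  haveI : Algebra.IsSeparable ↥(modularFunctionFieldFullC k N) ↥(modularFunctionFieldFullC k M) :=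
    separableAlong_inclC k p h hp
  exact Fermat.Agent.MAZ.G0Red56.FundSep.sum_ramificationIndex_sep
    (fun w f hf => exists_const_fullC k p M hp w hf) Q

end CharP

end Fermat.Agent.MAZ.G0Hedge18
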